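/-
Row S48 (Deligne–Serre), RES / Tower A1, piece **CHI0** (helper168).  Mathlib only.

A Hecke eigen-character from a mod-`𝔭` eigenvector, WITHOUT lifting to characteristic `0`
(replaces the Deligne–Serre lifting lemma in the construction of the residual representation).

Setting: `O` a commutative ring, `𝔭` a maximal ideal (`O = ℤ̄` or a localisation, `𝔭 = ker φ`),
`L` an `O`-module (forms with `𝔭`-integral `q`-expansion in the `η`-part of `S₂(Γ₁(Nℓ))`),
`T` a commutative ring acting `O`-linearly on `L` (Hecke algebra), generated as a ring by a set `G`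
(the `T_p` and `⟨d⟩`), `g₀ ∈ L`, `g₀ ∉ 𝔭 L`, with `t • g₀ ≡ c t • g₀ mod 𝔭 L` for `t ∈ G`.

`exists_eigenCharacter` : there is a ring hom `χ : T →+* O ⧸ 𝔭` with `χ t = c t mod 𝔭` on `G`, and
every `t ∈ T` acts on `g₀` modulo `𝔭 L` through (a lift of) `χ t`.
-/
import Mathlib.RingTheory.Ideal.Quotient.Operations
import Mathlib.RingTheory.Ideal.Maximal
import Mathlib.Algebra.Module.Submodule.Pointwise
import Mathlib.RingTheory.Ideal.Operations

set_option autoImplicit false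
set_option linter.unusedSectionVars false

namespace Fermat.Agent.S48.H168

open Ideal

variable {O : Type*} [CommRing O] (𝔭 : Ideal O)
variable {L : Type*} [AddCommGroup L] [Module O L]
variable {T : Type*} [CommRing T] [Module T L] [SMulCommClass T O L]

/-- The submodule `𝔭 L`. -/
abbrev pL : Submodule O L := 𝔭 • (⊤ : Submodule O L)

/-- `t` acts on `g₀` through the scalar `c` modulo `𝔭 L`. -/
def ActsBy (g₀ : L) (t : T) (c : O) : Prop := t • g₀ - c • g₀ ∈ pL 𝔭 (L := L)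

variable {𝔭}

theorem smul_mem_pL (t : T) {x : L} (hx : x ∈ pL 𝔭 (L := L)) : t • x ∈ pL 𝔭 (L := L) := by
  refine Submodule.smul_induction_on hx ?_ ?_
  · intro r hr n _
    rw [smul_comm]
    exact Submodule.smul_mem_smul hr Submodule.mem_top
  · intro x y hx hy
    rw [smul_add]
    exact Submodule.add_mem _ hx hy

theorem scalar_smul_mem_pL {c : O} (hc : c ∈ 𝔭) (x : L) : c • x ∈ pL 𝔭 (L := L) :=
  Submodule.smul_mem_smul hc Submodule.mem_top

/-- Uniqueness of the eigenvalue modulo `𝔭`. -/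
theorem ActsBy.sub_mem [𝔭.IsMaximal] {g₀ : L} (hg₀ : g₀ ∉ pL 𝔭 (L := L)) {t : T} {c c' : O}
    (h : ActsBy 𝔭 g₀ t c) (h' : ActsBy 𝔭 g₀ t c') : c - c' ∈ 𝔭 := by
  by_contra hcc
  have hmem : (c - c') • g₀ ∈ pL 𝔭 (L := L) := by
    have : (c - c') • g₀ = (t • g₀ - c' • g₀) - (t • g₀ - c • g₀) := by
      rw [sub_smul]; abel
    rw [this]
    exact Submodule.sub_mem _ h' h
  obtain ⟨u, hu⟩ := Ideal.Quotient.exists_inv (I := 𝔭)
    (a := Ideal.Quotient.mk 𝔭 (c - c')) (by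
      rwa [Ne, Ideal.Quotient.eq_zero_iff_mem])
  obtain ⟨u, rfl⟩ := Ideal.Quotient.mk_surjective u
  rw [← map_mul, ← map_one (Ideal.Quotient.mk 𝔭), Ideal.Quotient.eq] at hu
  apply hg₀
  have : g₀ = u • ((c - c') • g₀) - ((c - c') * u - 1) • g₀ := by
    rw [smul_smul, sub_smul, one_smul, mul_comm u]; abel
  rw [this]
  exact Submodule.sub_mem _ (Submodule.smul_mem _ _ hmem) (scalar_smul_mem_pL hu g₀)

theorem ActsBy.add {g₀ : L} {t s : T} {c d : O} (ht : ActsBy 𝔭 g₀ t c) (hs : ActsBy 𝔭 g₀ s d) :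
    ActsBy 𝔭 g₀ (t + s) (c + d) := by
  unfold ActsBy at *
  have : (t + s) • g₀ - (c + d) • g₀ = (t • g₀ - c • g₀) + (s • g₀ - d • g₀) := by
    rw [add_smul, add_smul]; abel
  rw [this]
  exact Submodule.add_mem _ ht hs

theorem ActsBy.neg {g₀ : L} {t : T} {c : O} (ht : ActsBy 𝔭 g₀ t c) :
    ActsBy 𝔭 g₀ (-t) (-c) := by
  unfold ActsBy at *
  have : (-t) • g₀ - (-c) • g₀ = -(t • g₀ - c • g₀) := by
    rw [neg_smul, neg_smul]; abel
  rw [this]
  exact Submodule.neg_mem _ ht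

theorem ActsBy.mul {g₀ : L} {t s : T} {c d : O} (ht : ActsBy 𝔭 g₀ t c) (hs : ActsBy 𝔭 g₀ s d) :
    ActsBy 𝔭 g₀ (t * s) (c * d) := by
  unfold ActsBy at *
  have : (t * s) • g₀ - (c * d) • g₀ = t • (s • g₀ - d • g₀) + d • (t • g₀ - c • g₀) := by
    rw [mul_smul, smul_sub, smul_sub, smul_comm t d g₀, mul_comm c d, mul_smul]; abel
  rw [this]
  exact Submodule.add_mem _ (smul_mem_pL t hs) (Submodule.smul_mem _ _ ht)

theorem ActsBy.one (g₀ : L) : ActsBy 𝔭 g₀ (1 : T) (1 : O) := by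
  unfold ActsBy
  rw [one_smul, one_smul, sub_self]
  exact Submodule.zero_mem _

theorem ActsBy.zero (g₀ : L) : ActsBy 𝔭 g₀ (0 : T) (0 : O) := by
  unfold ActsBy
  rw [zero_smul, zero_smul, sub_self]
  exact Submodule.zero_mem _

/-- Every element of the subring generated by eigen-operators is an eigen-operator. -/
theorem exists_actsBy_of_closure {g₀ : L} {G : Set T}
    (hG : ∀ t ∈ G, ∃ c : O, ActsBy 𝔭 g₀ t c) {t : T} (ht : t ∈ Subring.closure G) :
    ∃ c : O, ActsBy 𝔭 g₀ t c := by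
  induction ht using Subring.closure_induction with
  | mem x hx => exact hG x hx
  | zero => exact ⟨0, ActsBy.zero g₀⟩
  | one => exact ⟨1, ActsBy.one g₀⟩
  | add x y _ _ hx hy =>
      obtain ⟨c, hc⟩ := hx
      obtain ⟨d, hd⟩ := hy
      exact ⟨c + d, hc.add hd⟩
  | neg x _ hx =>
      obtain ⟨c, hc⟩ := hx
      exact ⟨-c, hc.neg⟩
  | mul x y _ _ hx hy =>
      obtain ⟨c, hc⟩ := hx
      obtain ⟨d, hd⟩ := hy
      exact ⟨c * d, hc.mul hd⟩

open Classical in
/-- **CHI0.**  The eigen-character of a mod-`𝔭` eigenvector `g₀ ∉ 𝔭 L` of a commutative ring `T`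
generated by eigen-operators. -/
theorem exists_eigenCharacter [𝔭.IsMaximal] {g₀ : L} (hg₀ : g₀ ∉ pL 𝔭 (L := L)) {G : Set T}
    (hgen : Subring.closure G = ⊤) (hG : ∀ t ∈ G, ∃ c : O, ActsBy 𝔭 g₀ t c) :
    ∃ χ : T →+* O ⧸ 𝔭,
      (∀ (t : T) (c : O), ActsBy 𝔭 g₀ t c → χ t = Ideal.Quotient.mk 𝔭 c) ∧
      (∀ t : T, ∃ c : O, ActsBy 𝔭 g₀ t c ∧ χ t = Ideal.Quotient.mk 𝔭 c) := by
  have hall : ∀ t : T, ∃ c : O, ActsBy 𝔭 g₀ t c := fun t =>
    exists_actsBy_of_closure hG (by rw [hgen]; exact Subring.mem_top t)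
  choose e he using hall
  have huniq : ∀ (t : T) (c : O), ActsBy 𝔭 g₀ t c →
      Ideal.Quotient.mk 𝔭 (e t) = Ideal.Quotient.mk 𝔭 c := fun t c hc =>
    Ideal.Quotient.eq.2 ((he t).sub_mem hg₀ hc)
  refine ⟨{ toFun := fun t => Ideal.Quotient.mk 𝔭 (e t)
            map_one' := ?_
            map_mul' := ?_
            map_zero' := ?_
            map_add' := ?_ }, ?_, ?_⟩
  · rw [huniq 1 1 (ActsBy.one g₀), map_one]
  · intro t s
    rw [huniq (t * s) (e t * e s) ((he t).mul (he s)), map_mul]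
  · rw [huniq 0 0 (ActsBy.zero g₀), map_zero]
  · intro t s
    rw [huniq (t + s) (e t + e s) ((he t).add (he s)), map_add]
  · intro t c hc
    exact huniq t c hc
  · intro t
    exact ⟨e t, he t, rfl⟩

end Fermat.Agent.S48.H168
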